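/-
S55 / FINAL WIRING, layer G (row-lead helper55).

`E1.GlobalInputSpec` (the only arithmetic input of the engine E1 that is still open) from the
ONE remaining open leaf of layer G, the finite reciprocity dictionary
`G.Rec.TOW.FinRecSpec p = Nonempty (TOW.SemiLocalInv p)` (block FR, sub-architect helper353).

Everything else is closed on main and plugged in here:
* TOW (helper417): `gd1`, `gd3` from `SemiLocalInv p` + G-UP + DESC-TOW + G-SIND + RAM;
* G-CM (helper893): `pClassModule_of_leaves` (intrinsic class module from the tower `Gd1Spec`);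
* GAD (helper955): `globalInputSpec_of` from GAD-CM, GAD-J, GAD-EX1
  (transports helper594, Kummer step helper121).
NO sorry.
-/
import Fermat.Agent.S55.GAD.Final
import Fermat.Agent.S55.GAD.TransH594
import Fermat.Agent.S55.GAD.ExistStepH121
import Fermat.Agent.S55.G.CM.Assembly
import Fermat.Agent.S55.G.CM.H893.Closure
import Fermat.Agent.S55.G.CM.H514.SubCM
import Fermat.Agent.S55.G.CM.H644.Ord
import Fermat.Agent.S55.G.CM.H587.DescIncl
import Fermat.Agent.S55.G.CM.H139.SIndTop
import Fermat.Agent.S55.G.Rec.Tow.H417.Closed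
import Fermat.Agent.S55.G.Rec.Tow.H414.Ram
import Fermat.Agent.S55.G.Rec.Tow.H934.DescTow
import Fermat.Agent.S55.G.SIndH237.Main
import Fermat.Agent.S55.G.AllH604

set_option autoImplicit false

namespace Fermat.Agent.S55.Fin

open Fermat.Agent.S55 Fermat.Agent.S55.Tow Fermat.Agent.S55.G

/-- The open leaf of layer G: for every odd prime `p` there is a system of semilocal
invariants (block FR). -/
def FinRecAllSpec : Prop := ∀ p : ℕ, p.Prime → p ≠ 2 → Rec.TOW.FinRecSpec p

/-- GD1 on the tower for every `p` (vacuous unless `p` is an odd prime). -/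
theorem gd1_all (hFR : FinRecAllSpec) : ∀ p : ℕ, Rec.TOW.Gd1Spec p := by
  intro p S hp hp2
  obtain ⟨I⟩ := hFR p hp hp2
  exact Rec.TOW.H417.gd1 hp I AllH604.pClassUpper Rec.TOW.H934.desc SIndH237.sIndep
    (Rec.TOW.H414.ramSpec p) S hp hp2

/-- GD3 on the tower for every odd prime `p`. -/
theorem gd3_all (hFR : FinRecAllSpec) (p : ℕ) (hp : p.Prime) (hp2 : p ≠ 2) :
    Rec.TOW.Gd3Spec p := by
  obtain ⟨I⟩ := hFR p hp hp2
  exact Rec.TOW.H417.gd3 hp I

/-- The intrinsic class module of layer G. -/
theorem pClassModule (hFR : FinRecAllSpec) : PClassModuleSpec :=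
  CM.pClassModule_of_leaves AllH604.pClassUpper (gd1_all hFR) CM.H893.closureLevel
    CM.H514.subClassModuleSpec CM.H644.quotOrder (CM.H587.descIncl_of DescH773.descentSpec)
    (CM.H139.sindTop_of SIndH237.sIndep)

/-- **Layer G, final**: the global input of the engine from the finite reciprocity
dictionary. -/
theorem globalInputSpec_of_finRec (hFR : FinRecAllSpec) : E1.GlobalInputSpec :=
  GAD.globalInputSpec_of
    (fun p _ hp2 S hpS =>
      GAD.H594.classModule_of_gd1 (S := S) (p := p) Fact.out hp2 hpS (gd1_all hFR p))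
    (fun p _ hp2 S _ => GAD.H594.jInj_of_gd3 (S := S) (p := p) (gd3_all hFR p Fact.out hp2))
    (GAD.H121.existStep_all_of_classModule (pClassModule hFR))

end Fermat.Agent.S55.Fin
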