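/-
S55 / FINAL WIRING, block FR (row-lead helper55).

`Fin.finRecAll : Fin.FinRecAllSpec` — for every odd prime `p` a system of semilocal invariants
`TOW.SemiLocalInv p` exists: `σ := FR.sigma I`, `I := Rec.Loc.localInvSystem`.

Plugged in (all closed on main):
* `Rec.reciprocityFull` (block REC), `Rec.Loc.localInvSystem` (block REC-LOC);
* FR assembly shell `FR.H724.finRec_of_fields` (recip + resIndex closed there, helper724);
* `FR.H481.injAt_of`, `FR.H481.locClass_of` (helper481);
* FR leaves: FR-A `H894.locInj`, FR-B `H841.orbitReps`, FR-C `H715.locExist`,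
  FR-D `H233.primePlace`; `G.ShapiroJSpec` (helper604), `ResTopSpec`, `ResCoeffNatSpec` (helper323).
NO sorry.
-/
import Fermat.Agent.S55.Fin.GlobalFR
import Fermat.Agent.S55.G.Rec.ReciprocityFull
import Fermat.Agent.S55.G.Rec.Loc.Final
import Fermat.Agent.S55.G.Rec.Tow.FR.AssemblyH724
import Fermat.Agent.S55.G.Rec.Tow.FR.AsmInjH481
import Fermat.Agent.S55.G.Rec.Tow.FR.AsmLocH481
import Fermat.Agent.S55.G.Rec.Tow.FR.LocInjH894
import Fermat.Agent.S55.G.Rec.Tow.FR.OrbitRepsH841
import Fermat.Agent.S55.G.Rec.Tow.FR.LocExistH715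
import Fermat.Agent.S55.G.Rec.Tow.FR.PrimePlaceH233
import Fermat.Agent.S55.G.Rec.Tow.H323.AlgB
import Fermat.Agent.S55.G.AllH604

set_option autoImplicit false

namespace Fermat.Agent.S55.Fin

open Fermat.Agent.S55 Fermat.Agent.S55.G Fermat.Agent.S55.G.Rec

/-- **Block FR, closed**: the finite reciprocity dictionary for an odd prime `p`. -/
theorem finRec (p : ℕ) (hp : p.Prime) (hp2 : p ≠ 2) : TOW.FinRecSpec p :=
  haveI : Fact p.Prime := ⟨hp⟩
  TOW.FR.H724.finRec_of_fields Loc.localInvSystem p
    (reciprocityFull Loc.localInvSystem p hp2)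
    (fun {_} M r y hy hat h0 =>
      TOW.FR.H481.injAt_of Loc.localInvSystem p TOW.FR.H841.orbitReps TOW.FR.H894.locInj
        AllH604.shapiroJ TOW.H323.resTop TOW.H323.resCoeffNat M r y hy hat h0)
    (fun {_} M r hr H Z hZH hZ hfix =>
      TOW.FR.H481.locClass_of Loc.localInvSystem p TOW.FR.H233.primePlace
        TOW.FR.H841.orbitReps TOW.FR.H715.locExist TOW.FR.H894.locInj AllH604.shapiroJ
        M r hr H Z hZH hZ hfix)

/-- **Block FR, closed**, quantified form. -/
theorem finRecAll : FinRecAllSpec := fun p hp hp2 => finRec p hp hp2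

/-- **Layer G, closed**: the global input of the engine E1. -/
theorem globalInputSpec : E1.GlobalInputSpec := globalInputSpec_of_finRec finRecAll

end Fermat.Agent.S55.Fin
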